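/-
S14 / DENS (helper92): the local factor `∏_{j<p} (1 - ζ^j x)⁻¹` for a `p`-th root of unity `ζ`.
Mathlib only.  No sorry.
-/
import Mathlib

set_option autoImplicit false

open Finset
open scoped Classical

noncomputable section

namespace Fermat.Agent.S14.Euler92

/-- `∏_{j<p} (1 - ζ^j x) = 1 - x^p` for a primitive `p`-th root of unity `ζ`. -/
theorem prod_one_sub_pow_mul {p : ℕ} (hp : 0 < p) {ζ : ℂ} (hζ : IsPrimitiveRoot ζ p) (x : ℂ) :
    ∏ j ∈ range p, (1 - ζ ^ j * x) = 1 - x ^ p := by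
  have h1 := hζ.pow_sub_pow_eq_prod_sub_mul (1 : ℂ) x hp
  rw [one_pow] at h1
  rw [h1]
  have h2 : Polynomial.nthRootsFinset p (1 : ℂ) = (range p).image (fun j ↦ ζ ^ j) := by
    ext μ
    rw [Polynomial.nthRootsFinset, Multiset.mem_toFinset, hζ.nthRoots_eq (one_pow p)]
    simp
  rw [h2, Finset.prod_image]
  intro i hi j hj hij
  exact hζ.pow_inj (mem_range.mp hi) (mem_range.mp hj) hij

theorem isPrimitiveRoot_of_prime {p : ℕ} (hp : p.Prime) {ζ : ℂ} (hζ : ζ ^ p = 1) (h1 : ζ ≠ 1) :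
    IsPrimitiveRoot ζ p := by
  have := Fact.mk hp
  have := orderOf_eq_prime hζ h1
  exact this ▸ IsPrimitiveRoot.orderOf ζ

/-- the local factor has norm at least one -/
theorem one_le_norm_prod_inv {p : ℕ} (hp : p.Prime) {ζ : ℂ} (hζ : ζ ^ p = 1) {x : ℝ}
    (hx0 : 0 ≤ x) (hx1 : x < 1) :
    1 ≤ ‖∏ j ∈ range p, (1 - ζ ^ j * (x : ℂ))⁻¹‖ := by
  rw [Finset.prod_inv_distrib, norm_inv]
  by_cases h1 : ζ = 1
  · subst h1
    simp only [one_pow, one_mul, prod_const, card_range, norm_pow]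
    have h2 : ‖(1 : ℂ) - (x : ℂ)‖ = 1 - x := by
      rw [← Complex.ofReal_one, ← Complex.ofReal_sub, Complex.norm_real, Real.norm_eq_abs,
        abs_of_pos (by linarith)]
    rw [h2]
    apply one_le_inv₀ (by positivity) |>.mpr
    exact pow_le_one₀ (by linarith) (by linarith)
  · rw [prod_one_sub_pow_mul hp.pos (isPrimitiveRoot_of_prime hp hζ h1)]
    have hxp0 : 0 ≤ x ^ p := pow_nonneg hx0 p
    have hxp : x ^ p < 1 := pow_lt_one₀ hx0 hx1 hp.ne_zero
    have h2 : ‖(1 : ℂ) - (x : ℂ) ^ p‖ = 1 - x ^ p := by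
      rw [← Complex.ofReal_one, ← Complex.ofReal_pow, ← Complex.ofReal_sub, Complex.norm_real,
        Real.norm_eq_abs, abs_of_pos (by linarith)]
    rw [h2]
    apply one_le_inv₀ (by linarith) |>.mpr
    linarith

/-- at `ζ = 1` the local factor is at least `exp (p x)` -/
theorem exp_le_norm_prod_inv {p : ℕ} {x : ℝ} (_hx0 : 0 ≤ x) (hx1 : x < 1) :
    Real.exp (p * x) ≤ ‖∏ j ∈ range p, (1 - (1 : ℂ) ^ j * (x : ℂ))⁻¹‖ := by
  simp only [one_pow, one_mul, prod_const, card_range, norm_pow, norm_inv]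
  have h2 : ‖(1 : ℂ) - (x : ℂ)‖ = 1 - x := by
    rw [← Complex.ofReal_one, ← Complex.ofReal_sub, Complex.norm_real, Real.norm_eq_abs,
      abs_of_pos (by linarith)]
  rw [h2, mul_comm, Real.exp_mul, Real.rpow_natCast]
  apply pow_le_pow_left₀ (Real.exp_pos _).le
  rw [le_inv_comm₀ (Real.exp_pos _) (by linarith), ← Real.exp_neg]
  have := Real.add_one_le_exp (-x)
  linarith

end Fermat.Agent.S14.Euler92
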