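/-
S14 / EULER (helper92): `s`-factored ideals of a Dedekind domain (nonzero ideals all of whose prime
factors lie in a finite set `s`), and the equivalence used in the inductive proof of the Euler
product (port of `Nat.factoredNumbers` / `Nat.equivProdNatFactoredNumbers`).
Mathlib only.  No sorry.
-/
import Mathlib

set_option autoImplicit false

open UniqueFactorizationMonoid
open scoped Classical

noncomputable section

namespace Fermat.Agent.S14.Euler92

variable {R : Type*} [CommRing R] [IsDedekindDomain R]

/-- The nonzero ideals all of whose prime factors lie in `s`. -/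
def factored (s : Finset (Ideal R)) : Set (Ideal R) :=
  {I | I ≠ ⊥ ∧ ∀ P ∈ normalizedFactors I, P ∈ s}

theorem mem_factored {s : Finset (Ideal R)} {I : Ideal R} :
    I ∈ factored s ↔ I ≠ ⊥ ∧ ∀ P ∈ normalizedFactors I, P ∈ s := Iff.rfl

theorem one_mem_factored (s : Finset (Ideal R)) : (1 : Ideal R) ∈ factored s := by
  refine ⟨one_ne_zero, fun P hP => ?_⟩
  rw [normalizedFactors_one] at hP
  exact absurd hP (Multiset.notMem_zero P)

theorem factored_empty : factored (∅ : Finset (Ideal R)) = {1} := by
  ext I
  constructor
  · rintro ⟨hI, h⟩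
    have h0 : normalizedFactors I = 0 := by
      apply Multiset.eq_zero_of_forall_notMem
      intro P hP
      exact absurd (h P hP) (Finset.notMem_empty P)
    have := Ideal.prod_normalizedFactors_eq_self hI
    rw [h0, Multiset.prod_zero] at this
    exact this.symm
  · rintro rfl
    exact one_mem_factored _

theorem mul_mem_factored {s : Finset (Ideal R)} {I J : Ideal R} (hI : I ∈ factored s)
    (hJ : J ∈ factored s) : I * J ∈ factored s := by
  refine ⟨mul_ne_zero hI.1 hJ.1, fun P hP => ?_⟩
  rw [normalizedFactors_mul hI.1 hJ.1, Multiset.mem_add] at hP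
  rcases hP with hP | hP
  · exact hI.2 P hP
  · exact hJ.2 P hP

theorem normalizedFactors_prime_pow {P : Ideal R} (hP : Prime P) (e : ℕ) :
    normalizedFactors (P ^ e) = Multiset.replicate e P := by
  rw [normalizedFactors_pow, normalizedFactors_irreducible hP.irreducible, normalize_eq,
    Multiset.nsmul_singleton]

theorem pow_mem_factored {s : Finset (Ideal R)} {P : Ideal R} (hP : Prime P) (hPs : P ∈ s)
    (e : ℕ) : P ^ e ∈ factored s := by
  refine ⟨pow_ne_zero _ hP.ne_zero, fun Q hQ => ?_⟩
  rw [normalizedFactors_prime_pow hP, Multiset.mem_replicate] at hQ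
  rw [hQ.2]; exact hPs

theorem factored_mono {s t : Finset (Ideal R)} (h : s ⊆ t) : factored s ⊆ factored t :=
  fun _ hI => ⟨hI.1, fun P hP => h (hI.2 P hP)⟩

/-- Inserting a non-prime does not change the factored ideals. -/
theorem factored_insert_of_not_prime (s : Finset (Ideal R)) {P : Ideal R} (hP : ¬ Prime P) :
    factored (insert P s) = factored s := by
  ext I
  constructor
  · rintro ⟨hI, h⟩
    refine ⟨hI, fun Q hQ => ?_⟩
    rcases Finset.mem_insert.mp (h Q hQ) with rfl | hQs
    · exact absurd (prime_of_normalized_factor Q hQ) hP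
    · exact hQs
  · exact fun hI => factored_mono (Finset.subset_insert P s) hI

/-- every nonzero ideal is `s`-factored for `s` the set of its prime factors -/
theorem mem_factored_toFinset {I : Ideal R} (hI : I ≠ ⊥) :
    I ∈ factored (normalizedFactors I).toFinset :=
  ⟨hI, fun _ hP => Multiset.mem_toFinset.mpr hP⟩

section Equiv

variable {s : Finset (Ideal R)} {P : Ideal R}

theorem count_eq_zero_of_mem_factored (hPs : P ∉ s) {J : Ideal R} (hJ : J ∈ factored s) :
    (normalizedFactors J).count P = 0 :=
  Multiset.count_eq_zero_of_notMem fun h => hPs (hJ.2 P h)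

theorem normalizedFactors_pow_mul (hP : Prime P) (e : ℕ) {J : Ideal R} (hJ : J ≠ ⊥) :
    normalizedFactors (P ^ e * J) = Multiset.replicate e P + normalizedFactors J := by
  rw [normalizedFactors_mul (pow_ne_zero _ hP.ne_zero) hJ, normalizedFactors_prime_pow hP]

/-- The prime-to-`P` part of an ideal. -/
def primeToPart (P I : Ideal R) : Ideal R := ((normalizedFactors I).filter (· ≠ P)).prod

theorem pow_count_mul_primeToPart (P : Ideal R) {I : Ideal R} (hI : I ≠ ⊥) :
    P ^ (normalizedFactors I).count P * primeToPart P I = I := by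
  have h1 : (normalizedFactors I).filter (· = P) =
      Multiset.replicate ((normalizedFactors I).count P) P := by
    rw [Multiset.filter_eq']
  have h2 := Multiset.filter_add_not (· = P) (normalizedFactors I)
  have h3 := Ideal.prod_normalizedFactors_eq_self hI
  rw [← h2, Multiset.prod_add, h1, Multiset.prod_replicate] at h3
  exact h3

theorem primeToPart_ne_bot (P : Ideal R) {I : Ideal R} (hI : I ≠ ⊥) : primeToPart P I ≠ ⊥ := by
  intro h
  have := pow_count_mul_primeToPart P hI
  rw [h] at this
  exact hI (by rw [← this]; exact mul_zero _)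

theorem normalizedFactors_primeToPart (P : Ideal R) {I : Ideal R} (_hI : I ≠ ⊥) :
    normalizedFactors (primeToPart P I) = (normalizedFactors I).filter (· ≠ P) := by
  unfold primeToPart
  apply normalizedFactors_prod_of_prime
  intro Q hQ
  exact prime_of_normalized_factor Q (Multiset.mem_of_mem_filter hQ)

theorem primeToPart_mem_factored
    {I : Ideal R} (hI' : I ∈ factored (insert P s)) : primeToPart P I ∈ factored s := by
  refine ⟨primeToPart_ne_bot P hI'.1, fun Q hQ => ?_⟩
  rw [normalizedFactors_primeToPart P hI'.1, Multiset.mem_filter] at hQ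
  rcases Finset.mem_insert.mp (hI'.2 Q hQ.1) with h | h
  · exact absurd h hQ.2
  · exact h

/-- The equivalence `(e, J) ↦ P ^ e * J` between `ℕ × factored s` and `factored (insert P s)`,
for a prime `P ∉ s`. -/
def equivProdNatFactored (hP : Prime P) (hPs : P ∉ s) :
    ℕ × factored s ≃ factored (insert P s) where
  toFun x := ⟨P ^ x.1 * (x.2 : Ideal R),
    mul_mem_factored (pow_mem_factored hP (Finset.mem_insert_self P s) x.1)
      (factored_mono (Finset.subset_insert P s) x.2.2)⟩
  invFun I := ((normalizedFactors (I : Ideal R)).count P,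
    ⟨primeToPart P I, primeToPart_mem_factored I.2⟩)
  left_inv := by
    rintro ⟨e, J, hJ⟩
    have hc : (normalizedFactors (P ^ e * J)).count P = e := by
      rw [normalizedFactors_pow_mul hP e hJ.1, Multiset.count_add, Multiset.count_replicate_self,
        count_eq_zero_of_mem_factored hPs hJ, add_zero]
    have hpart : primeToPart P (P ^ e * J) = J := by
      have hne : P ^ e * J ≠ ⊥ := mul_ne_zero (pow_ne_zero _ hP.ne_zero) hJ.1
      have h1 := pow_count_mul_primeToPart P hne
      rw [hc] at h1
      exact mul_left_cancel₀ (pow_ne_zero e hP.ne_zero) h1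
    exact Prod.ext hc (Subtype.ext hpart)
  right_inv := by
    rintro ⟨I, hI⟩
    ext1
    exact pow_count_mul_primeToPart P hI.1

@[simp] theorem equivProdNatFactored_apply (hP : Prime P) (hPs : P ∉ s) (x : ℕ × factored s) :
    (equivProdNatFactored hP hPs x : Ideal R) = P ^ x.1 * (x.2 : Ideal R) := rfl

end Equiv

end Fermat.Agent.S14.Euler92
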