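/-
S14 / EULER (helper92): the Euler product for completely multiplicative functions on the ideals
of a Dedekind domain (port of Mathlib's `EulerProduct.eulerProduct_completely_multiplicative_hasProd`
from `ℕ` to `Ideal R`).
Mathlib only.  No sorry.
-/
import Fermat.Agent.S14.Euler92.Factored

set_option autoImplicit false

open UniqueFactorizationMonoid Finset
open scoped Classical Topology

noncomputable section

namespace Fermat.Agent.S14.Euler92

variable {R : Type*} [CommRing R] [IsDedekindDomain R]
variable {F : Type*} [NormedField F] [CompleteSpace F]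

/-- Sum over `s`-factored ideals = finite product of geometric series. -/
theorem summable_and_hasSum_factored_prod_geometric {f : Ideal R →*₀ F}
    (h : ∀ {P : Ideal R}, Prime P → ‖f P‖ < 1) (s : Finset (Ideal R)) :
    Summable (fun I : factored s ↦ ‖f I‖) ∧
      HasSum (fun I : factored s ↦ f I) (∏ P ∈ s with Prime P, (1 - f P)⁻¹) := by
  induction s using Finset.induction with
  | empty =>
    rw [factored_empty]
    simp only [notMem_empty, IsEmpty.forall_iff, forall_const, filter_true_of_mem, prod_empty]
    refine ⟨(Set.finite_singleton (1 : Ideal R)).summable (‖f ·‖), ?_⟩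
    have h1 := hasSum_singleton (1 : Ideal R) (fun I => f I)
    rw [map_one] at h1
    exact h1
  | insert P s hP ih =>
    rw [filter_insert]
    split_ifs with hPP
    · have hgeo : Summable (fun n : ℕ ↦ ‖f P‖ ^ n) :=
        summable_geometric_of_lt_one (norm_nonneg _) (h hPP)
      constructor
      · rw [← (equivProdNatFactored hPP hP).summable_iff]
        have : ((fun I : factored (insert P s) ↦ ‖f I‖) ∘ (equivProdNatFactored hPP hP)) =
            fun x : ℕ × factored s ↦ ‖f P‖ ^ x.1 * ‖f x.2‖ := by
          funext x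
          show ‖f (P ^ x.1 * (x.2 : Ideal R))‖ = _
          rw [map_mul, map_pow, norm_mul, norm_pow]
        rw [this]
        exact Summable.mul_of_nonneg hgeo ih.1 (fun n ↦ pow_nonneg (norm_nonneg _) n)
          (fun _ ↦ norm_nonneg _)
      · have hP' : P ∉ {P ∈ s | Prime P} := mt (mem_of_mem_filter P) hP
        rw [prod_insert hP', ← (equivProdNatFactored hPP hP).hasSum_iff]
        have : ((fun I : factored (insert P s) ↦ f I) ∘ (equivProdNatFactored hPP hP)) =
            fun x : ℕ × factored s ↦ f P ^ x.1 * f x.2 := by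
          funext x
          show f (P ^ x.1 * (x.2 : Ideal R)) = _
          rw [map_mul, map_pow]
        rw [this]
        have hg : HasSum (fun n : ℕ ↦ f P ^ n) (1 - f P)⁻¹ :=
          hasSum_geometric_of_norm_lt_one (h hPP)
        have hgn : Summable (fun n : ℕ ↦ ‖f P ^ n‖) := by
          simpa only [norm_pow] using hgeo
        have : T3Space F := instT3Space
        apply hg.mul ih.2
        apply summable_mul_of_summable_norm hgn ih.1
    · rwa [factored_insert_of_not_prime s hPP]

/-- value form -/
theorem prod_geometric_eq_tsum_factored {f : Ideal R →*₀ F}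
    (h : ∀ {P : Ideal R}, Prime P → ‖f P‖ < 1) (s : Finset (Ideal R)) :
    ∏ P ∈ s with Prime P, (1 - f P)⁻¹ = ∑' I : factored s, f I :=
  (summable_and_hasSum_factored_prod_geometric h s).2.tsum_eq.symm

/-- For a norm-summable completely multiplicative `f`, `‖f P‖ < 1` at all primes. -/
theorem norm_lt_one_of_summable {f : Ideal R →*₀ F} (hsum : Summable (fun I : Ideal R ↦ ‖f I‖))
    {P : Ideal R} (hP : Prime P) : ‖f P‖ < 1 := by
  have hinj : Function.Injective (fun n : ℕ ↦ P ^ n) := by
    intro m n hmn
    have h1 := congrArg normalizedFactors hmn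
    simp only [normalizedFactors_prime_pow hP] at h1
    have := congrArg Multiset.card h1
    simpa using this
  have h1 := hsum.comp_injective hinj
  have h2 : Summable (fun n : ℕ ↦ ‖f P‖ ^ n) := by
    refine h1.congr fun n ↦ ?_
    simp [map_pow, norm_pow]
  exact summable_geometric_iff_norm_lt_one.mp (by simpa using h2) |> fun h => by simpa using h

/-- Summing over `s`-factored ideals for `s` large gets arbitrarily close to the full sum. -/
theorem norm_tsum_factored_sub_tsum_lt {f : Ideal R →*₀ F} (hsum : Summable (fun I : Ideal R ↦ f I))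
    {ε : ℝ} (εpos : 0 < ε) :
    ∃ s₀ : Finset (Ideal R), ∀ s : Finset (Ideal R), s₀ ⊆ s →
      ‖(∑' I : Ideal R, f I) - ∑' I : factored s, f I‖ < ε := by
  obtain ⟨T, hT⟩ := hsum.tsum_vanishing (Metric.ball_mem_nhds 0 εpos)
  refine ⟨T.biUnion (fun I ↦ (normalizedFactors I).toFinset), fun s hs ↦ ?_⟩
  have hdisj : Disjoint ((factored s)ᶜ \ {⊥}) (T : Set (Ideal R)) := by
    rw [Set.disjoint_left]
    rintro I ⟨hIc, hI0⟩ hIT
    apply hIc
    have hI0' : I ≠ ⊥ := hI0
    refine ⟨hI0', fun P hP ↦ hs ?_⟩
    exact Finset.mem_biUnion.mpr ⟨I, hIT, Multiset.mem_toFinset.mpr hP⟩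
  have h1 := hT _ hdisj
  rw [mem_ball_zero_iff] at h1
  rw [← hsum.tsum_subtype_add_tsum_subtype_compl (factored s), add_sub_cancel_left,
    tsum_eq_tsum_sdiff_singleton (factored s)ᶜ (map_zero f)]
  exact h1

/-- **Euler product** for a norm-summable completely multiplicative function on ideals. -/
theorem eulerProduct_hasProd {f : Ideal R →*₀ F} (hsum : Summable (fun I : Ideal R ↦ ‖f I‖)) :
    HasProd (fun P : {P : Ideal R // Prime P} ↦ (1 - f P)⁻¹) (∑' I : Ideal R, f I) := by
  let G : Ideal R → F := fun P ↦ (1 - f P)⁻¹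
  change HasProd (G ∘ Subtype.val (p := (· ∈ {P : Ideal R | Prime P}))) _
  rw [hasProd_subtype_iff_mulIndicator, HasProd, SummationFilter.unconditional,
    Metric.tendsto_atTop]
  intro ε hε
  obtain ⟨s₀, hs₀⟩ := norm_tsum_factored_sub_tsum_lt hsum.of_norm hε
  refine ⟨s₀, fun s hs ↦ ?_⟩
  have : ∏ P ∈ s, {P : Ideal R | Prime P}.mulIndicator G P = ∏ P ∈ s with Prime P, G P :=
    prod_mulIndicator_eq_prod_filter s (fun _ ↦ G) _ id
  rw [this, dist_eq_norm, prod_geometric_eq_tsum_factored (norm_lt_one_of_summable hsum),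
    norm_sub_rev]
  exact hs₀ s hs

end Fermat.Agent.S14.Euler92
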