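/-
S14 / EULER (helper92): the Dedekind zeta function as a sum over ideals, for real `σ > 1`:
`normPow K σ : Ideal (𝓞 K) →*₀ ℝ`, `I ↦ N(I)^(-σ)`; summability; comparison with Mathlib's
`NumberField.dedekindZeta`; the two-sided bound `c/(σ-1) ≤ ζ_K(σ) ≤ C/(σ-1)` on `(1,2]`.
Mathlib only.  No sorry.
-/
import Fermat.Agent.S14.Euler92.Product

set_option autoImplicit false

open Filter Ideal NumberField Topology Finset Asymptotics
open scoped Classical

noncomputable section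

namespace Fermat.Agent.S14.Euler92

variable (K : Type*) [Field K] [NumberField K]

/-- `I ↦ N(I)^(-σ)` (and `⊥ ↦ 0`) as a monoid-with-zero homomorphism. -/
def normPow (σ : ℝ) : Ideal (𝓞 K) →*₀ ℝ where
  toFun I := if I = ⊥ then 0 else (absNorm I : ℝ) ^ (-σ)
  map_zero' := by simp
  map_one' := by
    simp
  map_mul' I J := by
    by_cases hI : I = ⊥
    · simp [hI]
    by_cases hJ : J = ⊥
    · simp [hJ]
    have hIJ : I * J ≠ ⊥ := mul_ne_zero hI hJ
    simp only [hI, hJ, hIJ, if_false, map_mul, Nat.cast_mul]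
    rw [Real.mul_rpow (Nat.cast_nonneg _) (Nat.cast_nonneg _)]

variable {K}

@[simp] theorem normPow_bot (σ : ℝ) : normPow K σ ⊥ = 0 := by
  rw [← Ideal.zero_eq_bot]; exact map_zero _

theorem normPow_apply_of_ne_bot (σ : ℝ) {I : Ideal (𝓞 K)} (hI : I ≠ ⊥) :
    normPow K σ I = (absNorm I : ℝ) ^ (-σ) := by
  simp [normPow, hI]

theorem normPow_nonneg (σ : ℝ) (I : Ideal (𝓞 K)) : 0 ≤ normPow K σ I := by
  by_cases hI : I = ⊥
  · rw [hI, normPow_bot]
  · rw [normPow_apply_of_ne_bot σ hI]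
    exact Real.rpow_nonneg (Nat.cast_nonneg _) _

theorem one_le_absNorm {I : Ideal (𝓞 K)} (hI : I ≠ ⊥) : 1 ≤ absNorm I := by
  rw [Nat.one_le_iff_ne_zero, ne_eq, Ideal.absNorm_eq_zero_iff]
  exact hI

theorem normPow_le_one {σ : ℝ} (hσ : 0 ≤ σ) (I : Ideal (𝓞 K)) : normPow K σ I ≤ 1 := by
  by_cases hI : I = ⊥
  · rw [hI, normPow_bot]; exact zero_le_one
  · rw [normPow_apply_of_ne_bot σ hI]
    apply Real.rpow_le_one_of_one_le_of_nonpos
    · exact_mod_cast one_le_absNorm hI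
    · linarith

/-- antitone in `σ` -/
theorem normPow_anti {σ τ : ℝ} (h : σ ≤ τ) (I : Ideal (𝓞 K)) : normPow K τ I ≤ normPow K σ I := by
  by_cases hI : I = ⊥
  · rw [hI, normPow_bot, normPow_bot]
  · rw [normPow_apply_of_ne_bot τ hI, normPow_apply_of_ne_bot σ hI]
    apply Real.rpow_le_rpow_of_exponent_le
    · exact_mod_cast one_le_absNorm hI
    · linarith

variable (K)

/-- number of ideals of norm `n` -/
def idealCount (n : ℕ) : ℕ := Nat.card {I : Ideal (𝓞 K) // absNorm I = n}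

theorem tendsto_sum_idealCount_div :
    Tendsto (fun n : ℕ ↦ (∑ k ∈ Icc 1 n, (idealCount K k : ℝ)) / n) atTop
      (𝓝 (dedekindZeta_residue K)) := by
  refine ((NumberField.Ideal.tendsto_norm_le_div_atTop₀ K).comp
    tendsto_natCast_atTop_atTop).congr fun n ↦ ?_
  simp only [Function.comp_apply, Nat.cast_le, ← Nat.cast_sum, idealCount]
  congr
  rw [← add_left_inj 1, ← card_norm_le_eq_card_norm_le_add_one,
    show Finset.Icc 1 n = Finset.Ioc 0 n from Finset.Icc_succ_left_eq_Ioc _ _,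
    show 1 = Nat.card {I : Ideal (𝓞 K) // absNorm I = 0} by simp [Ideal.absNorm_eq_zero_iff],
    Finset.sum_Ioc_add_eq_sum_Icc (n.zero_le),
    ← Finset.card_preimage_eq_sum_card_image_eq (fun k _ ↦ finite_setOfPred_absNorm_eq k)]
  simp [Set.coe_eq_subtype]

theorem lseriesSummable_idealCount {s : ℂ} (hs : 1 < s.re) :
    LSeriesSummable (fun n ↦ ((idealCount K n : ℝ) : ℂ)) s := by
  refine LSeriesSummable_of_sum_norm_bigO_and_nonneg ?_ (fun _ ↦ Nat.cast_nonneg _) zero_le_one hs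
  exact isBigO_atTop_natCast_rpow_of_tendsto_div_rpow (a := dedekindZeta_residue K)
    (by simpa using tendsto_sum_idealCount_div K)

/-- the sum of `N(I)^(-σ)` over the ideals of norm `n` -/
theorem tsum_fiber_normPow (σ : ℝ) (n : ℕ) :
    ∑' I : {I : Ideal (𝓞 K) // absNorm I = n}, normPow K σ I =
      if n = 0 then 0 else (idealCount K n : ℝ) * (n : ℝ) ^ (-σ) := by
  split_ifs with hn
  · have : ∀ I : {I : Ideal (𝓞 K) // absNorm I = n}, normPow K σ I = 0 := by
      rintro ⟨I, hI⟩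
      have : I = ⊥ := by rwa [hn, Ideal.absNorm_eq_zero_iff] at hI
      simp [this]
    simp [this]
  · have : ∀ I : {I : Ideal (𝓞 K) // absNorm I = n}, normPow K σ I = (n : ℝ) ^ (-σ) := by
      rintro ⟨I, hI⟩
      have hI0 : I ≠ ⊥ := by
        intro h; apply hn; rw [← hI, h]; simp
      simp only [normPow_apply_of_ne_bot σ hI0, hI]
    simp only [this]
    rw [tsum_const, idealCount, nsmul_eq_mul]

theorem norm_term_idealCount (σ : ℝ) (n : ℕ) :
    ‖LSeries.term (fun n ↦ ((idealCount K n : ℝ) : ℂ)) σ n‖ =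
      if n = 0 then 0 else (idealCount K n : ℝ) * (n : ℝ) ^ (-σ) := by
  rw [LSeries.norm_term_eq]
  split_ifs with hn
  · rfl
  · rw [Complex.norm_real, Complex.ofReal_re, Real.norm_eq_abs, abs_of_nonneg (Nat.cast_nonneg _),
      Real.rpow_neg (Nat.cast_nonneg _), div_eq_mul_inv]

theorem summable_normPow {σ : ℝ} (hσ : 1 < σ) :
    Summable (fun I : Ideal (𝓞 K) ↦ normPow K σ I) := by
  let e := Equiv.sigmaFiberEquiv (fun I : Ideal (𝓞 K) ↦ absNorm I)
  rw [← e.summable_iff]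
  show Summable (fun x : (Σ n : ℕ, {I : Ideal (𝓞 K) // absNorm I = n}) ↦ normPow K σ (e x))
  refine (summable_sigma_of_nonneg (fun x ↦ normPow_nonneg σ (e x))).mpr ⟨fun n ↦ ?_, ?_⟩
  · have : Finite {I : Ideal (𝓞 K) // absNorm I = n} := finite_setOfPred_absNorm_eq n
    exact Summable.of_finite
  · have h := (lseriesSummable_idealCount K (s := (σ : ℂ)) (by simpa using hσ)).norm
    refine h.congr fun n ↦ ?_
    rw [norm_term_idealCount]
    exact (tsum_fiber_normPow K σ n).symm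

/-- **`ζ_K(σ)` as a sum over ideals.** -/
theorem tsum_normPow_eq {σ : ℝ} (hσ : 1 < σ) :
    ((∑' I : Ideal (𝓞 K), normPow K σ I : ℝ) : ℂ) = dedekindZeta K σ := by
  let e := Equiv.sigmaFiberEquiv (fun I : Ideal (𝓞 K) ↦ absNorm I)
  have hsum := summable_normPow K hσ
  have h1 : ∑' I : Ideal (𝓞 K), normPow K σ I =
      ∑' n : ℕ, if n = 0 then 0 else (idealCount K n : ℝ) * (n : ℝ) ^ (-σ) := by
    have hs' : Summable (fun x : (Σ n : ℕ, {I : Ideal (𝓞 K) // absNorm I = n}) ↦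
        normPow K σ (e x)) := e.summable_iff.mpr hsum
    rw [← e.tsum_eq, hs'.tsum_sigma]
    exact tsum_congr fun n ↦ tsum_fiber_normPow K σ n
  rw [h1, Complex.ofReal_tsum, dedekindZeta, LSeries]
  refine tsum_congr fun n ↦ ?_
  rw [LSeries.term_def]
  split_ifs with hn
  · simp
  · push_cast
    rw [Real.rpow_neg (Nat.cast_nonneg _), Complex.ofReal_inv,
      Complex.ofReal_cpow (Nat.cast_nonneg _), div_eq_mul_inv]
    simp [idealCount]

/-- `ζ_K(σ)` for real `σ`, as a sum over ideals. -/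
def zetaR (σ : ℝ) : ℝ := ∑' I : Ideal (𝓞 K), normPow K σ I

theorem zetaR_eq {σ : ℝ} (hσ : 1 < σ) : ((zetaR K σ : ℝ) : ℂ) = dedekindZeta K σ :=
  tsum_normPow_eq K hσ

theorem tendsto_sub_one_mul_zetaR :
    Tendsto (fun σ : ℝ ↦ (σ - 1) * zetaR K σ) (𝓝[>] 1) (𝓝 (dedekindZeta_residue K)) := by
  have h := (Complex.continuous_re.tendsto _).comp (tendsto_sub_one_mul_dedekindZeta_nhdsGT K)
  rw [Complex.ofReal_re] at h
  refine h.congr' ?_
  filter_upwards [self_mem_nhdsWithin] with σ hσ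
  have hσ' : 1 < σ := hσ
  simp only [Function.comp_apply]
  rw [← zetaR_eq K hσ', ← Complex.ofReal_one, ← Complex.ofReal_sub, ← Complex.ofReal_mul,
    Complex.ofReal_re]

theorem one_le_zetaR {σ : ℝ} (hσ : 1 < σ) : 1 ≤ zetaR K σ := by
  have h := (summable_normPow K hσ).le_tsum (1 : Ideal (𝓞 K)) (fun I _ ↦ normPow_nonneg σ I)
  rwa [map_one] at h

theorem zetaR_anti {σ τ : ℝ} (h1 : 1 < σ) (h : σ ≤ τ) : zetaR K τ ≤ zetaR K σ :=
  (summable_normPow K (h1.trans_le h)).tsum_le_tsum (fun I ↦ normPow_anti h I)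
    (summable_normPow K h1)

/-- Two-sided bound `c ≤ (σ - 1) ζ_K(σ) ≤ C` on `(1, 2]`. -/
theorem exists_zetaR_bounds :
    ∃ c C : ℝ, 0 < c ∧ 0 < C ∧ ∀ σ : ℝ, 1 < σ → σ ≤ 2 →
      c ≤ (σ - 1) * zetaR K σ ∧ (σ - 1) * zetaR K σ ≤ C := by
  set ρ := dedekindZeta_residue K with hρ
  have hρpos : 0 < ρ := dedekindZeta_residue_pos K
  have hlim := tendsto_sub_one_mul_zetaR K
  have hev : ∀ᶠ σ in 𝓝[>] (1 : ℝ), ρ / 2 < (σ - 1) * zetaR K σ ∧ (σ - 1) * zetaR K σ < 2 * ρ := by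
    have h1 : ∀ᶠ σ in 𝓝[>] (1 : ℝ), ρ / 2 < (σ - 1) * zetaR K σ :=
      hlim.eventually (lt_mem_nhds (by linarith))
    have h2 : ∀ᶠ σ in 𝓝[>] (1 : ℝ), (σ - 1) * zetaR K σ < 2 * ρ :=
      hlim.eventually (gt_mem_nhds (by linarith))
    exact h1.and h2
  rw [eventually_nhdsWithin_iff, Metric.eventually_nhds_iff] at hev
  obtain ⟨δ, hδ, hball⟩ := hev
  set δ' := min δ 1 / 2 with hδ'
  have hδ'pos : 0 < δ' := by positivity
  have hδ'lt : δ' < δ := by
    have : min δ 1 ≤ δ := min_le_left _ _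
    rw [hδ']; linarith
  have hδ'le : δ' ≤ 1 / 2 := by
    have : min δ 1 ≤ 1 := min_le_right _ _
    rw [hδ']; linarith
  refine ⟨min (ρ / 2) δ', max (2 * ρ) (zetaR K (1 + δ')), by positivity, by positivity, ?_⟩
  intro σ h1 h2
  by_cases hσ : σ < 1 + δ'
  · have hd : dist σ 1 < δ := by
      rw [Real.dist_eq, abs_of_pos (by linarith)]; linarith
    have := hball hd h1
    exact ⟨(min_le_left _ _).trans this.1.le, this.2.le.trans (le_max_left _ _)⟩
  · push Not at hσ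
    have hz1 := one_le_zetaR K h1
    have hz2 := zetaR_anti K (σ := 1 + δ') (τ := σ) (by linarith) hσ
    constructor
    · calc min (ρ / 2) δ' ≤ δ' := min_le_right _ _
        _ ≤ (σ - 1) * 1 := by linarith
        _ ≤ (σ - 1) * zetaR K σ := by
          apply mul_le_mul_of_nonneg_left hz1; linarith
    · calc (σ - 1) * zetaR K σ ≤ 1 * zetaR K σ := by
            apply mul_le_mul_of_nonneg_right _ (by linarith); linarith
        _ ≤ zetaR K (1 + δ') := by rw [one_mul]; exact hz2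
        _ ≤ _ := le_max_right _ _

end Fermat.Agent.S14.Euler92
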