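/-
S14 / DENS (helper92): the density inequality.

`K` a number field, `ψ` a completely multiplicative function on the ideals of `𝓞 K` with values
in the `p`-th roots of unity (`p` prime).  If the `L`-series `L(σ, ψ^j)`, `0 < j < p`, are bounded
on `(1, 2]`, then for every set `S` of prime ideals on which `ψ = 1`:
  `p * ∑_{Q ∈ S} N(Q)^(-σ) ≤ log (1/(σ-1)) + C`   on `(1, 2]`.
Hence `S` cannot have lower Dirichlet density `> 1/p`.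
Mathlib only.  No sorry.
-/
import Fermat.Agent.S14.Euler92.Zeta
import Fermat.Agent.S14.Euler92.Local

set_option autoImplicit false

open Filter Ideal NumberField Topology Finset
open scoped Classical

noncomputable section

namespace Fermat.Agent.S14.Euler92

variable (K : Type*) [Field K] [NumberField K]

/-- `I ↦ ψ(I)^j N(I)^(-σ)` as a monoid-with-zero homomorphism. -/
def twistPow (ψ : Ideal (𝓞 K) →*₀ ℂ) (j : ℕ) (σ : ℝ) : Ideal (𝓞 K) →*₀ ℂ where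
  toFun I := ψ I ^ j * (normPow K σ I : ℂ)
  map_zero' := by simp
  map_one' := by rw [map_one, map_one, one_pow, Complex.ofReal_one, one_mul]
  map_mul' I J := by
    simp only [map_mul, mul_pow, Complex.ofReal_mul]
    ring

/-- The `L`-series `L(σ, ψ^j) = ∑_I ψ(I)^j N(I)^(-σ)` (real `σ`). -/
def Lfun (ψ : Ideal (𝓞 K) →*₀ ℂ) (j : ℕ) (σ : ℝ) : ℂ := ∑' I : Ideal (𝓞 K), twistPow K ψ j σ I

variable {K}

theorem twistPow_apply (ψ : Ideal (𝓞 K) →*₀ ℂ) (j : ℕ) (σ : ℝ) (I : Ideal (𝓞 K)) :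
    twistPow K ψ j σ I = ψ I ^ j * (normPow K σ I : ℂ) := rfl

theorem norm_twistPow_le {ψ : Ideal (𝓞 K) →*₀ ℂ} (hψ : ∀ I, ‖ψ I‖ ≤ 1) (j : ℕ) (σ : ℝ)
    (I : Ideal (𝓞 K)) : ‖twistPow K ψ j σ I‖ ≤ normPow K σ I := by
  rw [twistPow_apply, norm_mul, norm_pow, Complex.norm_real, Real.norm_eq_abs,
    abs_of_nonneg (normPow_nonneg σ I)]
  calc ‖ψ I‖ ^ j * normPow K σ I ≤ 1 * normPow K σ I := by
        apply mul_le_mul_of_nonneg_right _ (normPow_nonneg σ I)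
        exact pow_le_one₀ (norm_nonneg _) (hψ I)
    _ = normPow K σ I := one_mul _

theorem summable_norm_twistPow {ψ : Ideal (𝓞 K) →*₀ ℂ} (hψ : ∀ I, ‖ψ I‖ ≤ 1) (j : ℕ) {σ : ℝ}
    (hσ : 1 < σ) : Summable (fun I : Ideal (𝓞 K) ↦ ‖twistPow K ψ j σ I‖) :=
  Summable.of_nonneg_of_le (fun _ ↦ norm_nonneg _) (norm_twistPow_le hψ j σ)
    (summable_normPow K hσ)

/-- trivial character: `L(σ, ψ^0) = ζ_K(σ)` -/
theorem Lfun_zero (ψ : Ideal (𝓞 K) →*₀ ℂ) (σ : ℝ) : Lfun K ψ 0 σ = (zetaR K σ : ℂ) := by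
  unfold Lfun zetaR
  rw [Complex.ofReal_tsum]
  exact tsum_congr fun I ↦ by simp [twistPow_apply]

/-- Euler product of `L(σ, ψ^j)` -/
theorem hasProd_Lfun {ψ : Ideal (𝓞 K) →*₀ ℂ} (hψ : ∀ I, ‖ψ I‖ ≤ 1) (j : ℕ) {σ : ℝ}
    (hσ : 1 < σ) :
    HasProd (fun P : {P : Ideal (𝓞 K) // Prime P} ↦
      (1 - ψ P ^ j * (normPow K σ P : ℂ))⁻¹) (Lfun K ψ j σ) :=
  eulerProduct_hasProd (f := twistPow K ψ j σ) (summable_norm_twistPow hψ j hσ)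

/-- `N(P)^(-σ) ≤ 1/2` at a prime, `σ ≥ 1`. -/
theorem normPow_prime_le_half {P : Ideal (𝓞 K)} (hP : Prime P) {σ : ℝ} (hσ : 1 ≤ σ) :
    normPow K σ P ≤ 1 / 2 := by
  have hP0 : P ≠ ⊥ := hP.ne_zero
  have h2 : 2 ≤ absNorm P := by
    have h1 := one_le_absNorm hP0
    have hne : absNorm P ≠ 1 := by
      rw [ne_eq, Ideal.absNorm_eq_one_iff]
      exact (Ideal.isPrime_of_prime hP).ne_top
    omega
  rw [normPow_apply_of_ne_bot σ hP0, Real.rpow_neg (Nat.cast_nonneg _), one_div]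
  apply inv_anti₀ (by norm_num)
  calc (2 : ℝ) ≤ (absNorm P : ℝ) := by exact_mod_cast h2
    _ = (absNorm P : ℝ) ^ (1 : ℝ) := (Real.rpow_one _).symm
    _ ≤ (absNorm P : ℝ) ^ σ := by
        apply Real.rpow_le_rpow_of_exponent_le _ hσ
        exact_mod_cast one_le_absNorm hP0

/-- **Key inequality**: for a finite set `T` of primes on which `ψ = 1`,
`exp (p ∑_{Q∈T} N(Q)^(-σ)) ≤ ‖∏_{j<p} L(σ, ψ^j)‖`. -/
theorem exp_sum_le_norm_prod_Lfun {p : ℕ} (hp : p.Prime) {ψ : Ideal (𝓞 K) →*₀ ℂ}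
    (hψ : ∀ I : Ideal (𝓞 K), I ≠ ⊥ → ψ I ^ p = 1) {σ : ℝ} (hσ : 1 < σ)
    (T : Finset {P : Ideal (𝓞 K) // Prime P}) (hT : ∀ Q ∈ T, ψ (Q : Ideal (𝓞 K)) = 1) :
    Real.exp (p * ∑ Q ∈ T, normPow K σ (Q : Ideal (𝓞 K))) ≤ ‖∏ j ∈ range p, Lfun K ψ j σ‖ := by
  have hψn : ∀ I : Ideal (𝓞 K), ‖ψ I‖ ≤ 1 := by
    intro I
    by_cases hI : I = ⊥
    · rw [hI, ← Ideal.zero_eq_bot, map_zero, norm_zero]; exact zero_le_one
    · have h1 := congrArg norm (hψ I hI)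
      rw [norm_pow, norm_one] at h1
      exact (pow_eq_one_iff_of_nonneg (norm_nonneg _) hp.ne_zero).mp h1 |>.le
  have hprod : HasProd (fun P : {P : Ideal (𝓞 K) // Prime P} ↦
      ∏ j ∈ range p, (1 - ψ P ^ j * (normPow K σ P : ℂ))⁻¹) (∏ j ∈ range p, Lfun K ψ j σ) :=
    hasProd_prod fun j _ ↦ hasProd_Lfun hψn j hσ
  have hnorm := hprod.norm
  -- local factors
  have hx0 : ∀ P : {P : Ideal (𝓞 K) // Prime P}, 0 ≤ normPow K σ (P : Ideal (𝓞 K)) :=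
    fun P ↦ normPow_nonneg σ _
  have hx1 : ∀ P : {P : Ideal (𝓞 K) // Prime P}, normPow K σ (P : Ideal (𝓞 K)) < 1 :=
    fun P ↦ (normPow_prime_le_half P.2 hσ.le).trans_lt (by norm_num)
  have hge1 : ∀ P : {P : Ideal (𝓞 K) // Prime P},
      1 ≤ ‖∏ j ∈ range p, (1 - ψ P ^ j * (normPow K σ P : ℂ))⁻¹‖ :=
    fun P ↦ one_le_norm_prod_inv hp (hψ P P.2.ne_zero) (hx0 P) (hx1 P)
  have hgeexp : ∀ Q ∈ T, Real.exp (p * normPow K σ (Q : Ideal (𝓞 K))) ≤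
      ‖∏ j ∈ range p, (1 - ψ Q ^ j * (normPow K σ Q : ℂ))⁻¹‖ := by
    intro Q hQ
    rw [hT Q hQ]
    exact exp_le_norm_prod_inv (hx0 Q) (hx1 Q)
  -- pass to the limit
  have htend : Tendsto (fun s : Finset {P : Ideal (𝓞 K) // Prime P} ↦
      ∏ P ∈ s, ‖∏ j ∈ range p, (1 - ψ P ^ j * (normPow K σ P : ℂ))⁻¹‖) atTop
      (𝓝 ‖∏ j ∈ range p, Lfun K ψ j σ‖) := hnorm
  refine ge_of_tendsto htend ?_
  filter_upwards [eventually_ge_atTop T] with s hs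
  rw [Finset.mul_sum, Real.exp_sum]
  calc ∏ Q ∈ T, Real.exp (p * normPow K σ (Q : Ideal (𝓞 K)))
      ≤ ∏ Q ∈ T, ‖∏ j ∈ range p, (1 - ψ Q ^ j * (normPow K σ Q : ℂ))⁻¹‖ :=
        Finset.prod_le_prod (fun Q _ ↦ (Real.exp_pos _).le) hgeexp
    _ = ∏ Q ∈ T, (if Q ∈ T then
          ‖∏ j ∈ range p, (1 - ψ Q ^ j * (normPow K σ Q : ℂ))⁻¹‖ else 1) :=
        Finset.prod_congr rfl fun Q hQ ↦ (if_pos hQ).symm
    _ = ∏ Q ∈ s, (if Q ∈ T then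
          ‖∏ j ∈ range p, (1 - ψ Q ^ j * (normPow K σ Q : ℂ))⁻¹‖ else 1) :=
        Finset.prod_subset hs fun Q _ hQ ↦ if_neg hQ
    _ ≤ ∏ Q ∈ s, ‖∏ j ∈ range p, (1 - ψ Q ^ j * (normPow K σ Q : ℂ))⁻¹‖ := by
        refine Finset.prod_le_prod (fun Q _ ↦ ?_) (fun Q _ ↦ ?_)
        · split_ifs
          · exact norm_nonneg _
          · exact zero_le_one
        · split_ifs
          · exact le_rfl
          · exact hge1 Q

/-- **Upper density bound**: `p ∑_{Q∈T} N(Q)^(-σ) ≤ log (1/(σ-1)) + C` uniformly in `σ ∈ (1,2]` and in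
the finite sets `T` of primes with `ψ = 1`, provided the `L(σ, ψ^j)`, `0 < j < p`, are bounded. -/
theorem exists_bound_sum_le_log {p : ℕ} (hp : p.Prime) {ψ : Ideal (𝓞 K) →*₀ ℂ}
    (hψ : ∀ I : Ideal (𝓞 K), I ≠ ⊥ → ψ I ^ p = 1)
    (hCNT : ∀ j : ℕ, 0 < j → j < p → ∃ B : ℝ, ∀ σ : ℝ, 1 < σ → σ ≤ 2 → ‖Lfun K ψ j σ‖ ≤ B) :
    ∃ C : ℝ, ∀ σ : ℝ, 1 < σ → σ ≤ 2 → ∀ T : Finset {P : Ideal (𝓞 K) // Prime P},
      (∀ Q ∈ T, ψ (Q : Ideal (𝓞 K)) = 1) →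
      p * ∑ Q ∈ T, normPow K σ (Q : Ideal (𝓞 K)) ≤ Real.log (1 / (σ - 1)) + C := by
  have hCNT' : ∀ j : ℕ, ∃ B : ℝ, 0 < j → j < p → ∀ σ : ℝ, 1 < σ → σ ≤ 2 →
      ‖Lfun K ψ j σ‖ ≤ B := by
    intro j
    by_cases h : 0 < j ∧ j < p
    · obtain ⟨B, hB⟩ := hCNT j h.1 h.2
      exact ⟨B, fun _ _ ↦ hB⟩
    · exact ⟨0, fun h1 h2 ↦ absurd ⟨h1, h2⟩ h⟩
  choose B hB using hCNT'
  obtain ⟨c₁, C₁, hc₁, hC₁, hz⟩ := exists_zetaR_bounds K
  set M : ℝ := ∏ j ∈ (range p).erase 0, max 1 (B j) with hM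
  have hMpos : 0 < M := Finset.prod_pos fun j _ ↦ lt_of_lt_of_le zero_lt_one (le_max_left _ _)
  refine ⟨Real.log (C₁ * M), fun σ h1 h2 T hT ↦ ?_⟩
  have hkey := exp_sum_le_norm_prod_Lfun hp hψ h1 T hT
  have h0 : (0 : ℕ) ∈ range p := mem_range.mpr hp.pos
  rw [← Finset.mul_prod_erase _ _ h0, norm_mul, Lfun_zero, Complex.norm_real, Real.norm_eq_abs,
    abs_of_nonneg (zero_le_one.trans (one_le_zetaR K h1)), norm_prod] at hkey
  have hprodle : ∏ j ∈ (range p).erase 0, ‖Lfun K ψ j σ‖ ≤ M := by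
    refine Finset.prod_le_prod (fun j _ ↦ norm_nonneg _) (fun j hj ↦ ?_)
    have hj' := Finset.mem_erase.mp hj
    exact (hB j (Nat.pos_of_ne_zero hj'.1) (mem_range.mp hj'.2) σ h1 h2).trans (le_max_right _ _)
  have hσ1 : 0 < σ - 1 := by linarith
  have hzle : zetaR K σ ≤ C₁ / (σ - 1) := by
    rw [le_div_iff₀ hσ1, mul_comm]; exact (hz σ h1 h2).2
  have hz0 : 0 ≤ zetaR K σ := zero_le_one.trans (one_le_zetaR K h1)
  have hfinal : Real.exp (p * ∑ Q ∈ T, normPow K σ (Q : Ideal (𝓞 K))) ≤ C₁ * M * (1 / (σ - 1)) := by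
    calc _ ≤ zetaR K σ * ∏ j ∈ (range p).erase 0, ‖Lfun K ψ j σ‖ := hkey
      _ ≤ (C₁ / (σ - 1)) * M := mul_le_mul hzle hprodle
          (Finset.prod_nonneg fun j _ ↦ norm_nonneg _) (by positivity)
      _ = C₁ * M * (1 / (σ - 1)) := by ring
  have hpos : 0 < C₁ * M * (1 / (σ - 1)) := by positivity
  have := (Real.le_log_iff_exp_le hpos).mpr hfinal
  rw [Real.log_mul (by positivity) (by positivity)] at this
  linarith

/-- **DENS.** A set `S` of primes with `ψ = 1` on `S` cannot have lower Dirichlet density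
`c > 1/p`. -/
theorem dens_false {p : ℕ} (hp : p.Prime) {ψ : Ideal (𝓞 K) →*₀ ℂ}
    (hψ : ∀ I : Ideal (𝓞 K), I ≠ ⊥ → ψ I ^ p = 1)
    (hCNT : ∀ j : ℕ, 0 < j → j < p → ∃ B : ℝ, ∀ σ : ℝ, 1 < σ → σ ≤ 2 → ‖Lfun K ψ j σ‖ ≤ B)
    (S : Set (Ideal (𝓞 K))) (hSprime : ∀ Q ∈ S, Prime Q) (hSψ : ∀ Q ∈ S, ψ Q = 1)
    {c C₀ : ℝ} (hc : 1 < c * p)
    (hS : ∀ σ : ℝ, 1 < σ → σ ≤ 2 →
      c * Real.log (1 / (σ - 1)) - C₀ ≤ ∑' Q : S, normPow K σ (Q : Ideal (𝓞 K))) : False := by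
  obtain ⟨C, hC⟩ := exists_bound_sum_le_log hp hψ hCNT
  have hp0 : (0 : ℝ) < p := by exact_mod_cast hp.pos
  -- upper bound for the sum over `S`
  have hup : ∀ σ : ℝ, 1 < σ → σ ≤ 2 →
      p * ∑' Q : S, normPow K σ (Q : Ideal (𝓞 K)) ≤ Real.log (1 / (σ - 1)) + C := by
    intro σ h1 h2
    have hsum : Summable (fun Q : S ↦ normPow K σ (Q : Ideal (𝓞 K))) :=
      (summable_normPow K h1).subtype S
    rw [← le_div_iff₀' hp0]
    refine hsum.tsum_le_of_sum_le fun T' ↦ ?_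
    rw [le_div_iff₀' hp0]
    let emb : S ↪ {P : Ideal (𝓞 K) // Prime P} :=
      ⟨fun Q ↦ ⟨Q.1, hSprime Q.1 Q.2⟩, fun Q Q' h ↦ Subtype.ext (by simpa using congrArg Subtype.val h)⟩
    have := hC σ h1 h2 (T'.map emb) (by
      intro Q hQ
      obtain ⟨Q', _, rfl⟩ := Finset.mem_map.mp hQ
      exact hSψ Q'.1 Q'.2)
    rwa [Finset.sum_map] at this
  -- choose `σ` close to `1`
  set A : ℝ := (C₀ * p + C) / (c * p - 1) with hA
  set L : ℝ := max 0 A + 1 with hL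
  have hLpos : 0 < L := by positivity
  have hLA : A < L := lt_of_le_of_lt (le_max_right 0 A) (lt_add_one _)
  set σ : ℝ := 1 + Real.exp (-L) with hσ
  have h1 : 1 < σ := by rw [hσ]; linarith [Real.exp_pos (-L)]
  have h2 : σ ≤ 2 := by
    have : Real.exp (-L) ≤ 1 := Real.exp_le_one_iff.mpr (by linarith)
    rw [hσ]; linarith
  have hlog : Real.log (1 / (σ - 1)) = L := by
    rw [hσ, add_sub_cancel_left, one_div, ← Real.exp_neg, neg_neg, Real.log_exp]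
  have e1 := hS σ h1 h2
  have e2 := hup σ h1 h2
  rw [hlog] at e1 e2
  have hcp : 0 < c * p - 1 := by linarith
  have e3 : (c * p - 1) * L ≤ C₀ * p + C := by
    have := mul_le_mul_of_nonneg_left e1 hp0.le
    nlinarith
  have e4 : L ≤ A := by
    rw [hA, le_div_iff₀ hcp]; linarith
  linarith

end Fermat.Agent.S14.Euler92
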