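/-
S14 / EULER (helper92): the prime zeta sum of a number field.

(E3) `∑_P N(P)^(-s) = log (1/(s-1)) + O(1)` on `(1, 2]`, the sum over all nonzero primes of `𝓞 K`.
(E2) the primes whose norm is not a rational prime contribute `O(1)`.
Both in the `{P // Prime P}` shape (with `normPow`) and in the `HeightOneSpectrum` shape.
Mathlib only.  No sorry.
-/
import Fermat.Agent.S14.Euler92.Dens

set_option autoImplicit false

open Filter Ideal NumberField Topology Finset IsDedekindDomain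
open scoped Classical

noncomputable section

namespace Fermat.Agent.S14.Euler92

variable (K : Type*) [Field K] [NumberField K]

/-- the prime zeta sum `∑_P N(P)^(-σ)` -/
def primeSum (σ : ℝ) : ℝ := ∑' P : {P : Ideal (𝓞 K) // Prime P}, normPow K σ (P : Ideal (𝓞 K))

theorem summable_primes {σ : ℝ} (hσ : 1 < σ) :
    Summable (fun P : {P : Ideal (𝓞 K) // Prime P} ↦ normPow K σ (P : Ideal (𝓞 K))) :=
  (summable_normPow K hσ).subtype _

theorem primeSum_nonneg (σ : ℝ) : 0 ≤ primeSum K σ :=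
  tsum_nonneg fun P ↦ normPow_nonneg σ _

theorem hasProd_zetaR {σ : ℝ} (hσ : 1 < σ) :
    HasProd (fun P : {P : Ideal (𝓞 K) // Prime P} ↦ (1 - normPow K σ (P : Ideal (𝓞 K)))⁻¹)
      (zetaR K σ) := by
  have hsum : Summable (fun I : Ideal (𝓞 K) ↦ ‖normPow K σ I‖) := by
    refine (summable_normPow K hσ).congr fun I ↦ ?_
    rw [Real.norm_eq_abs, abs_of_nonneg (normPow_nonneg σ I)]
  exact eulerProduct_hasProd (f := normPow K σ) hsum

theorem prod_le_prod_of_subset_of_one_le_real {ι : Type*} {f : ι → ℝ} {s t : Finset ι} (h : s ⊆ t)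
    (h0 : ∀ i ∈ s, 0 ≤ f i) (h1 : ∀ i ∈ t, i ∉ s → 1 ≤ f i) :
    ∏ i ∈ s, f i ≤ ∏ i ∈ t, f i := by
  rw [← Finset.prod_sdiff h]
  have h2 : (1 : ℝ) ≤ ∏ i ∈ t \ s, f i := by
    calc (1 : ℝ) = ∏ _i ∈ t \ s, (1 : ℝ) := Finset.prod_const_one.symm
      _ ≤ ∏ i ∈ t \ s, f i := Finset.prod_le_prod (fun _ _ ↦ zero_le_one)
          (fun i hi ↦ h1 i (Finset.mem_sdiff.mp hi).1 (Finset.mem_sdiff.mp hi).2)
  exact le_mul_of_one_le_left (Finset.prod_nonneg h0) h2

theorem one_add_le_inv_one_sub {x : ℝ} (h0 : 0 ≤ x) (h1 : x < 1) : Real.exp x ≤ (1 - x)⁻¹ := by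
  have h : 0 < 1 - x := by linarith
  rw [le_inv_comm₀ (Real.exp_pos x) h, ← Real.exp_neg]
  linarith [Real.add_one_le_exp (-x)]

theorem inv_one_sub_le_exp {x : ℝ} (h0 : 0 ≤ x) (h1 : x ≤ 1 / 2) :
    (1 - x)⁻¹ ≤ Real.exp (x + 2 * x ^ 2) := by
  have h : 0 < 1 - x := by linarith
  have e1 : (1 - x)⁻¹ = 1 + x / (1 - x) := by field_simp; ring
  have e2 : x / (1 - x) ≤ x + 2 * x ^ 2 := by
    rw [div_le_iff₀ h]
    nlinarith [mul_nonneg h0 h0, mul_nonneg (mul_nonneg h0 h0) (by linarith : (0:ℝ) ≤ 1 - 2 * x)]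
  calc (1 - x)⁻¹ = x / (1 - x) + 1 := by rw [e1]; ring
    _ ≤ Real.exp (x / (1 - x)) := Real.add_one_le_exp _
    _ ≤ Real.exp (x + 2 * x ^ 2) := Real.exp_le_exp.mpr e2

/-- upper bound: `exp (∑_P N(P)^(-σ)) ≤ ζ_K(σ)` -/
theorem exp_primeSum_le_zetaR {σ : ℝ} (hσ : 1 < σ) : Real.exp (primeSum K σ) ≤ zetaR K σ := by
  have hx0 : ∀ P : {P : Ideal (𝓞 K) // Prime P}, 0 ≤ normPow K σ (P : Ideal (𝓞 K)) :=
    fun P ↦ normPow_nonneg σ _
  have hx1 : ∀ P : {P : Ideal (𝓞 K) // Prime P}, normPow K σ (P : Ideal (𝓞 K)) < 1 :=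
    fun P ↦ (normPow_prime_le_half P.2 hσ.le).trans_lt (by norm_num)
  have hfin : ∀ T : Finset {P : Ideal (𝓞 K) // Prime P},
      Real.exp (∑ P ∈ T, normPow K σ (P : Ideal (𝓞 K))) ≤ zetaR K σ := by
    intro T
    have htend : Tendsto (fun s : Finset {P : Ideal (𝓞 K) // Prime P} ↦
        ∏ P ∈ s, (1 - normPow K σ (P : Ideal (𝓞 K)))⁻¹) atTop (𝓝 (zetaR K σ)) := hasProd_zetaR K hσ
    refine ge_of_tendsto htend ?_
    filter_upwards [eventually_ge_atTop T] with s hs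
    rw [Real.exp_sum]
    calc ∏ P ∈ T, Real.exp (normPow K σ (P : Ideal (𝓞 K)))
        ≤ ∏ P ∈ T, (1 - normPow K σ (P : Ideal (𝓞 K)))⁻¹ :=
          Finset.prod_le_prod (fun P _ ↦ (Real.exp_pos _).le)
            (fun P _ ↦ one_add_le_inv_one_sub (hx0 P) (hx1 P))
      _ ≤ ∏ P ∈ s, (1 - normPow K σ (P : Ideal (𝓞 K)))⁻¹ := by
          refine prod_le_prod_of_subset_of_one_le_real hs (fun P _ ↦ ?_) (fun P _ _ ↦ ?_)
          · exact inv_nonneg.mpr (by linarith [hx1 P])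
          · exact (one_le_inv₀ (by linarith [hx1 P])).mpr (by linarith [hx0 P])
  -- pass to the supremum over finite sets
  have hsum := summable_primes K hσ
  have htend : Tendsto (fun T : Finset {P : Ideal (𝓞 K) // Prime P} ↦
      Real.exp (∑ P ∈ T, normPow K σ (P : Ideal (𝓞 K)))) atTop (𝓝 (Real.exp (primeSum K σ))) :=
    (Real.continuous_exp.tendsto _).comp hsum.hasSum
  exact le_of_tendsto' htend hfin

/-- lower bound: `ζ_K(σ) ≤ exp (∑_P N(P)^(-σ) + 2 ∑_P N(P)^(-2))` -/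
theorem zetaR_le_exp_primeSum {σ : ℝ} (hσ : 1 < σ) :
    zetaR K σ ≤ Real.exp (primeSum K σ + 2 * primeSum K 2) := by
  have hx0 : ∀ P : {P : Ideal (𝓞 K) // Prime P}, 0 ≤ normPow K σ (P : Ideal (𝓞 K)) :=
    fun P ↦ normPow_nonneg σ _
  have hxh : ∀ P : {P : Ideal (𝓞 K) // Prime P}, normPow K σ (P : Ideal (𝓞 K)) ≤ 1 / 2 :=
    fun P ↦ normPow_prime_le_half P.2 hσ.le
  have hsum := summable_primes K hσ
  have hsum2 := summable_primes K (show (1 : ℝ) < 2 by norm_num)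
  -- `x_P ^ 2 ≤ N(P)^(-2)`
  have hsq : ∀ P : {P : Ideal (𝓞 K) // Prime P},
      normPow K σ (P : Ideal (𝓞 K)) ^ 2 ≤ normPow K 2 (P : Ideal (𝓞 K)) := by
    intro P
    have hP0 : (P : Ideal (𝓞 K)) ≠ ⊥ := P.2.ne_zero
    have h1 : (1 : ℝ) ≤ (absNorm (P : Ideal (𝓞 K)) : ℝ) := by exact_mod_cast one_le_absNorm hP0
    rw [normPow_apply_of_ne_bot σ hP0, normPow_apply_of_ne_bot 2 hP0, ← Real.rpow_natCast,
      ← Real.rpow_mul (by linarith)]
    apply Real.rpow_le_rpow_of_exponent_le h1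
    push_cast
    linarith
  have htend : Tendsto (fun s : Finset {P : Ideal (𝓞 K) // Prime P} ↦
      ∏ P ∈ s, (1 - normPow K σ (P : Ideal (𝓞 K)))⁻¹) atTop (𝓝 (zetaR K σ)) := hasProd_zetaR K hσ
  refine le_of_tendsto' htend fun s ↦ ?_
  calc ∏ P ∈ s, (1 - normPow K σ (P : Ideal (𝓞 K)))⁻¹
      ≤ ∏ P ∈ s, Real.exp (normPow K σ (P : Ideal (𝓞 K)) + 2 * normPow K σ (P : Ideal (𝓞 K)) ^ 2) :=
        Finset.prod_le_prod (fun P _ ↦ inv_nonneg.mpr (by linarith [hxh P]))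
          (fun P _ ↦ inv_one_sub_le_exp (hx0 P) (hxh P))
    _ = Real.exp (∑ P ∈ s, (normPow K σ (P : Ideal (𝓞 K)) +
          2 * normPow K σ (P : Ideal (𝓞 K)) ^ 2)) := (Real.exp_sum _ _).symm
    _ ≤ Real.exp (primeSum K σ + 2 * primeSum K 2) := by
        apply Real.exp_le_exp.mpr
        rw [Finset.sum_add_distrib, ← Finset.mul_sum]
        have a1 : ∑ P ∈ s, normPow K σ (P : Ideal (𝓞 K)) ≤ primeSum K σ :=
          hsum.sum_le_tsum s fun P _ ↦ hx0 P
        have a2 : ∑ P ∈ s, normPow K σ (P : Ideal (𝓞 K)) ^ 2 ≤ primeSum K 2 :=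
          (Finset.sum_le_sum fun P _ ↦ hsq P).trans
            (hsum2.sum_le_tsum s fun P _ ↦ normPow_nonneg 2 _)
        linarith

/-- **(E3)**, `{P // Prime P}` shape: `|∑_P N(P)^(-σ) - log (1/(σ-1))| ≤ C` on `(1, 2]`. -/
theorem exists_primeSum_bound :
    ∃ C : ℝ, ∀ σ : ℝ, 1 < σ → σ ≤ 2 → |primeSum K σ - Real.log (1 / (σ - 1))| ≤ C := by
  obtain ⟨c₁, C₁, hc₁, hC₁, hz⟩ := exists_zetaR_bounds K
  refine ⟨|Real.log c₁| + |Real.log C₁| + 2 * primeSum K 2, fun σ h1 h2 ↦ ?_⟩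
  have hσ1 : 0 < σ - 1 := by linarith
  have hzpos : 0 < zetaR K σ := lt_of_lt_of_le zero_lt_one (one_le_zetaR K h1)
  have hup := exp_primeSum_le_zetaR K h1
  have hlow := zetaR_le_exp_primeSum K h1
  have hzle : zetaR K σ ≤ C₁ * (1 / (σ - 1)) := by
    rw [mul_one_div, le_div_iff₀ hσ1, mul_comm]; exact (hz σ h1 h2).2
  have hzge : c₁ * (1 / (σ - 1)) ≤ zetaR K σ := by
    rw [mul_one_div, div_le_iff₀ hσ1, mul_comm]; exact (hz σ h1 h2).1
  have hinv : 0 < 1 / (σ - 1) := by positivity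
  -- upper
  have u1 : primeSum K σ ≤ Real.log (zetaR K σ) := (Real.le_log_iff_exp_le hzpos).mpr hup
  have u2 : Real.log (zetaR K σ) ≤ Real.log C₁ + Real.log (1 / (σ - 1)) := by
    rw [← Real.log_mul hC₁.ne' hinv.ne']
    exact Real.log_le_log hzpos hzle
  -- lower
  have l1 : Real.log (zetaR K σ) ≤ primeSum K σ + 2 * primeSum K 2 :=
    (Real.log_le_iff_le_exp hzpos).mpr hlow
  have l2 : Real.log c₁ + Real.log (1 / (σ - 1)) ≤ Real.log (zetaR K σ) := by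
    rw [← Real.log_mul hc₁.ne' hinv.ne']
    exact Real.log_le_log (by positivity) hzge
  have hP2 := primeSum_nonneg K 2
  rw [abs_le]
  constructor
  · have := neg_abs_le (Real.log c₁)
    have := abs_nonneg (Real.log C₁)
    linarith
  · have := le_abs_self (Real.log C₁)
    have := abs_nonneg (Real.log c₁)
    linarith

/-! ### `HeightOneSpectrum` shape -/

/-- nonzero primes as `HeightOneSpectrum` and as `Prime` elements of the monoid of ideals -/
def hosEquiv : HeightOneSpectrum (𝓞 K) ≃ {P : Ideal (𝓞 K) // Prime P} where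
  toFun P := ⟨P.asIdeal, P.prime⟩
  invFun P := ⟨P.1, Ideal.isPrime_of_prime P.2, P.2.ne_zero⟩
  left_inv P := by ext; rfl
  right_inv P := by ext; rfl

theorem hosEquiv_apply (P : HeightOneSpectrum (𝓞 K)) :
    ((hosEquiv K P : {P : Ideal (𝓞 K) // Prime P}) : Ideal (𝓞 K)) = P.asIdeal := rfl

theorem normPow_hos (σ : ℝ) (P : HeightOneSpectrum (𝓞 K)) :
    normPow K σ P.asIdeal = ((absNorm P.asIdeal : ℝ)) ^ (-σ) :=
  normPow_apply_of_ne_bot σ P.ne_bot

theorem primeSum_summable {s : ℝ} (hs : 1 < s) :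
    Summable (fun P : HeightOneSpectrum (𝓞 K) ↦ ((absNorm P.asIdeal : ℝ)) ^ (-s)) := by
  have h := (hosEquiv K).summable_iff.mpr (summable_primes K hs)
  refine h.congr fun P ↦ ?_
  rw [Function.comp_apply, hosEquiv_apply, normPow_hos]

theorem primeSum_eq_tsum_hos (s : ℝ) :
    primeSum K s = ∑' P : HeightOneSpectrum (𝓞 K), ((absNorm P.asIdeal : ℝ)) ^ (-s) := by
  unfold primeSum
  rw [← (hosEquiv K).tsum_eq]
  exact tsum_congr fun P ↦ by rw [hosEquiv_apply, normPow_hos]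

/-- **(E3)**, `HeightOneSpectrum` shape. -/
theorem primeSum_bound :
    ∃ C : ℝ, ∀ s : ℝ, 1 < s → s ≤ 2 →
      |∑' P : HeightOneSpectrum (𝓞 K), ((absNorm P.asIdeal : ℝ)) ^ (-s) -
        Real.log (1 / (s - 1))| ≤ C := by
  obtain ⟨C, hC⟩ := exists_primeSum_bound K
  exact ⟨C, fun s h1 h2 ↦ by rw [← primeSum_eq_tsum_hos]; exact hC s h1 h2⟩

/-! ### (E2): primes of residue degree at least two -/

variable {K}

theorem exists_prime_pow (P : HeightOneSpectrum (𝓞 K)) :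
    ∃ q f : ℕ, 0 < f ∧ (q : 𝓞 K) ∈ P.asIdeal ∧ q.Prime ∧ absNorm P.asIdeal = q ^ f := by
  have := P.isMaximal
  exact Ideal.exists_prime_and_absNorm_eq_pow P.asIdeal

theorem minFac_absNorm (P : HeightOneSpectrum (𝓞 K)) :
    (absNorm P.asIdeal).minFac.Prime ∧ ((absNorm P.asIdeal).minFac : 𝓞 K) ∈ P.asIdeal := by
  obtain ⟨q, f, hf, hqP, hq, hN⟩ := exists_prime_pow P
  rw [hN, hq.pow_minFac hf.ne']
  exact ⟨hq, hqP⟩

/-- at most `[K : ℚ]` primes of `𝓞 K` contain a given rational prime -/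
theorem card_le_finrank_of_mem {q : ℕ} (hq : q.Prime) (T : Finset (HeightOneSpectrum (𝓞 K)))
    (hT : ∀ P ∈ T, (q : 𝓞 K) ∈ P.asIdeal) : T.card ≤ Module.finrank ℚ K := by
  have hinj : Set.InjOn (fun P : HeightOneSpectrum (𝓞 K) ↦ P.asIdeal) (T : Set _) :=
    fun P _ Q _ h ↦ HeightOneSpectrum.ext h
  have hdvd : ∏ P ∈ T, P.asIdeal ∣ Ideal.span {(q : 𝓞 K)} := by
    have := Finset.prod_primes_dvd (s := T.image fun P ↦ P.asIdeal) (Ideal.span {(q : 𝓞 K)})
      (by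
        intro I hI
        obtain ⟨P, _, rfl⟩ := Finset.mem_image.mp hI
        exact P.prime)
      (by
        intro I hI
        obtain ⟨P, hP, rfl⟩ := Finset.mem_image.mp hI
        rw [Ideal.dvd_iff_le, Ideal.span_singleton_le_iff_mem]
        exact hT P hP)
    rwa [Finset.prod_image hinj] at this
  have hN : absNorm (∏ P ∈ T, P.asIdeal) ∣ q ^ Module.finrank ℚ K := by
    have := map_dvd (absNorm (S := 𝓞 K)) hdvd
    rwa [Ideal.absNorm_span_natCast, RingOfIntegers.rank] at this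
  rw [map_prod] at hN
  have hge : ∀ P ∈ T, q ≤ absNorm P.asIdeal := by
    intro P hP
    have h1 : absNorm P.asIdeal ∣ q ^ Module.finrank ℚ K := by
      have := Ideal.absNorm_dvd_absNorm_of_le
        ((Ideal.span_singleton_le_iff_mem (I := P.asIdeal)).mpr (hT P hP))
      rwa [Ideal.absNorm_span_natCast, RingOfIntegers.rank] at this
    obtain ⟨k, _, hk⟩ := (Nat.dvd_prime_pow hq).mp h1
    rw [hk]
    have hk0 : k ≠ 0 := by
      rintro rfl
      rw [pow_zero, Ideal.absNorm_eq_one_iff] at hk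
      exact P.isPrime.ne_top hk
    calc q = q ^ 1 := (pow_one q).symm
      _ ≤ q ^ k := Nat.pow_le_pow_right hq.pos (Nat.one_le_iff_ne_zero.mpr hk0)
  have hle : q ^ T.card ≤ q ^ Module.finrank ℚ K := by
    calc q ^ T.card = ∏ _P ∈ T, q := (Finset.prod_const q).symm
      _ ≤ ∏ P ∈ T, absNorm P.asIdeal := Finset.prod_le_prod' hge
      _ ≤ q ^ Module.finrank ℚ K := Nat.le_of_dvd (pow_pos hq.pos _) hN
  exact (Nat.pow_le_pow_iff_right hq.one_lt).mp hle

variable (K)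

/-- **(E2)**: the primes whose norm is not a rational prime contribute `O(1)`, finite-sum form. -/
theorem primeSum_nonprime_bound :
    ∃ C : ℝ, ∀ s : ℝ, 1 ≤ s → ∀ T : Finset (HeightOneSpectrum (𝓞 K)),
      (∀ P ∈ T, ¬ (absNorm P.asIdeal).Prime) →
      ∑ P ∈ T, ((absNorm P.asIdeal : ℝ)) ^ (-s) ≤ C := by
  have hsummable : Summable (fun k : ℕ ↦ ((k : ℝ) ^ 2)⁻¹) :=
    Real.summable_nat_pow_inv.mpr (by norm_num)
  refine ⟨Module.finrank ℚ K * ∑' k : ℕ, ((k : ℝ) ^ 2)⁻¹, fun s hs T hT ↦ ?_⟩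
  set m : HeightOneSpectrum (𝓞 K) → ℕ := fun P ↦ (absNorm P.asIdeal).minFac with hm
  -- termwise bound
  have hterm : ∀ P ∈ T, ((absNorm P.asIdeal : ℝ)) ^ (-s) ≤ ((m P : ℝ) ^ 2)⁻¹ := by
    intro P hP
    obtain ⟨q, f, hf, hqP, hq, hN⟩ := exists_prime_pow P
    have hmP : m P = q := by rw [hm]; simp only; rw [hN, hq.pow_minFac hf.ne']
    have hf2 : 2 ≤ f := by
      rcases Nat.lt_or_ge f 2 with h | h
      · have : f = 1 := by omega
        rw [this, pow_one] at hN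
        exact absurd (hN ▸ hq) (hT P hP)
      · exact h
    have hq1 : (1 : ℝ) ≤ q := by exact_mod_cast hq.one_lt.le
    have hN1 : (1 : ℝ) ≤ (absNorm P.asIdeal : ℝ) := by
      rw [hN]; push_cast; exact one_le_pow₀ hq1
    calc ((absNorm P.asIdeal : ℝ)) ^ (-s) ≤ ((absNorm P.asIdeal : ℝ)) ^ (-1 : ℝ) :=
          Real.rpow_le_rpow_of_exponent_le hN1 (by linarith)
      _ = ((absNorm P.asIdeal : ℝ))⁻¹ := Real.rpow_neg_one _
      _ ≤ ((m P : ℝ) ^ 2)⁻¹ := by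
          rw [hmP, hN]
          push_cast
          apply inv_anti₀ (by positivity)
          exact pow_le_pow_right₀ hq1 hf2
  calc ∑ P ∈ T, ((absNorm P.asIdeal : ℝ)) ^ (-s)
      ≤ ∑ P ∈ T, ((m P : ℝ) ^ 2)⁻¹ := Finset.sum_le_sum hterm
    _ = ∑ b ∈ T.image m, ((T.filter fun P ↦ m P = b).card : ℝ) * ((b : ℝ) ^ 2)⁻¹ := by
        rw [Finset.sum_comp (fun b : ℕ ↦ ((b : ℝ) ^ 2)⁻¹) m]
        exact Finset.sum_congr rfl fun b _ ↦ by rw [nsmul_eq_mul]
    _ ≤ ∑ b ∈ T.image m, (Module.finrank ℚ K : ℝ) * ((b : ℝ) ^ 2)⁻¹ := by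
        refine Finset.sum_le_sum fun b hb ↦ ?_
        apply mul_le_mul_of_nonneg_right _ (by positivity)
        obtain ⟨P₀, _, hP₀⟩ := Finset.mem_image.mp hb
        have hbprime : b.Prime := hP₀ ▸ (minFac_absNorm P₀).1
        have := card_le_finrank_of_mem hbprime (T.filter fun P ↦ m P = b) (by
          intro P hP
          have := (Finset.mem_filter.mp hP).2
          rw [← this]
          exact (minFac_absNorm P).2)
        exact_mod_cast this
    _ = Module.finrank ℚ K * ∑ b ∈ T.image m, ((b : ℝ) ^ 2)⁻¹ := (Finset.mul_sum _ _ _).symm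
    _ ≤ Module.finrank ℚ K * ∑' k : ℕ, ((k : ℝ) ^ 2)⁻¹ := by
        apply mul_le_mul_of_nonneg_left _ (Nat.cast_nonneg _)
        exact hsummable.sum_le_tsum _ fun k _ ↦ by positivity

/-- **(E2)**, `tsum` form over the subtype of primes with non-prime norm. -/
theorem primeSum_nonprime_tsum_bound :
    ∃ C : ℝ, ∀ s : ℝ, 1 < s →
      ∑' P : {P : HeightOneSpectrum (𝓞 K) // ¬ (absNorm P.asIdeal).Prime},
        ((absNorm P.1.asIdeal : ℝ)) ^ (-s) ≤ C := by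
  obtain ⟨C, hC⟩ := primeSum_nonprime_bound K
  refine ⟨C, fun s hs ↦ ?_⟩
  have hsum : Summable (fun P : {P : HeightOneSpectrum (𝓞 K) // ¬ (absNorm P.asIdeal).Prime} ↦
      ((absNorm P.1.asIdeal : ℝ)) ^ (-s)) := (primeSum_summable K hs).subtype _
  refine hsum.tsum_le_of_sum_le fun T ↦ ?_
  have := hC s hs.le (T.map (Function.Embedding.subtype _)) (by
    intro P hP
    obtain ⟨P', _, rfl⟩ := Finset.mem_map.mp hP
    exact P'.2)
  rwa [Finset.sum_map] at this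

end Fermat.Agent.S14.Euler92
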