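/-
S14 / DENS (helper92): adapter from [CNT] (`Cnt.ClassZetaStatement`) to the hypothesis `hCNT`
of `dens_false`.

`ψ : ClassGroup (𝓞 K) →* ℂˣ`, extended to `extChar ψ : Ideal (𝓞 K) →*₀ ℂ` (`⊥ ↦ 0`).  Then
`Lfun K (extChar ψ) j σ = ∑_c ψ(c)^j ζ(σ, c)`, and if `ψ^j ≠ 1` this is bounded on `(1, 2]`
because the partial zeta functions of two classes differ by a bounded function.
No sorry.
-/
import Fermat.Agent.S14.Euler92.Dens
import Fermat.Agent.S14.Cnt.Defs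

set_option autoImplicit false

open Filter Ideal NumberField Topology Finset
open scoped Classical nonZeroDivisors

noncomputable section

namespace Fermat.Agent.S14.Euler92

variable {K : Type*} [Field K] [NumberField K]

/-- a nonzero ideal as an element of `(Ideal (𝓞 K))⁰` -/
def nz (I : Ideal (𝓞 K)) (h : I ≠ ⊥) : (Ideal (𝓞 K))⁰ := ⟨I, mem_nonZeroDivisors_of_ne_zero h⟩

theorem nz_coe (I : Ideal (𝓞 K)) (h : I ≠ ⊥) : ((nz I h : (Ideal (𝓞 K))⁰) : Ideal (𝓞 K)) = I := rfl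

theorem ne_bot_of_nz (I : (Ideal (𝓞 K))⁰) : (I : Ideal (𝓞 K)) ≠ ⊥ :=
  nonZeroDivisors.ne_zero I.2

/-- The extension by zero of a class group character to all ideals. -/
def extChar (ψ : ClassGroup (𝓞 K) →* ℂˣ) : Ideal (𝓞 K) →*₀ ℂ where
  toFun I := if h : I = ⊥ then 0 else ((ψ (ClassGroup.mk0 (nz I h)) : ℂˣ) : ℂ)
  map_zero' := by simp
  map_one' := by
    have h1 : (1 : Ideal (𝓞 K)) ≠ ⊥ := by rw [Ideal.one_eq_top]; exact top_ne_bot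
    rw [dif_neg h1]
    have : nz (1 : Ideal (𝓞 K)) h1 = 1 := Subtype.ext rfl
    rw [this, map_one, map_one, Units.val_one]
  map_mul' I J := by
    by_cases hI : I = ⊥
    · simp [hI]
    by_cases hJ : J = ⊥
    · simp [hJ]
    have hIJ : I * J ≠ ⊥ := by
      rw [ne_eq, Ideal.mul_eq_bot]; tauto
    rw [dif_neg hI, dif_neg hJ, dif_neg hIJ]
    have : nz (I * J) hIJ = nz I hI * nz J hJ := Subtype.ext rfl
    rw [this, map_mul, map_mul, Units.val_mul]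

theorem extChar_of_ne_bot (ψ : ClassGroup (𝓞 K) →* ℂˣ) {I : Ideal (𝓞 K)} (h : I ≠ ⊥) :
    extChar ψ I = ((ψ (ClassGroup.mk0 (nz I h)) : ℂˣ) : ℂ) := by
  show (if h : I = ⊥ then (0 : ℂ) else _) = _
  rw [dif_neg h]

theorem extChar_nz (ψ : ClassGroup (𝓞 K) →* ℂˣ) (I : (Ideal (𝓞 K))⁰) :
    extChar ψ (I : Ideal (𝓞 K)) = ((ψ (ClassGroup.mk0 I) : ℂˣ) : ℂ) := by
  rw [extChar_of_ne_bot ψ (ne_bot_of_nz I)]
  rfl

theorem extChar_pow_eq_one (ψ : ClassGroup (𝓞 K) →* ℂˣ) {p : ℕ} (hψ : ∀ c, ψ c ^ p = 1)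
    (I : Ideal (𝓞 K)) (hI : I ≠ ⊥) : extChar ψ I ^ p = 1 := by
  rw [extChar_of_ne_bot ψ hI, ← Units.val_pow_eq_pow_val, hψ, Units.val_one]

theorem norm_char_eq_one (ψ : ClassGroup (𝓞 K) →* ℂˣ) (c : ClassGroup (𝓞 K)) :
    ‖((ψ c : ℂˣ) : ℂ)‖ = 1 := by
  have h : (ψ c) ^ Fintype.card (ClassGroup (𝓞 K)) = 1 := by
    rw [← map_pow, pow_card_eq_one, map_one]
  have h2 : ((ψ c : ℂˣ) : ℂ) ^ Fintype.card (ClassGroup (𝓞 K)) = 1 := by
    rw [← Units.val_pow_eq_pow_val, h, Units.val_one]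
  have h3 := congrArg norm h2
  rw [norm_pow, norm_one] at h3
  exact (pow_eq_one_iff_of_nonneg (norm_nonneg _) Fintype.card_ne_zero).mp h3

theorem norm_extChar_le_one (ψ : ClassGroup (𝓞 K) →* ℂˣ) (I : Ideal (𝓞 K)) : ‖extChar ψ I‖ ≤ 1 := by
  by_cases hI : I = ⊥
  · rw [hI, ← Ideal.zero_eq_bot, map_zero, norm_zero]; exact zero_le_one
  · rw [extChar_of_ne_bot ψ hI, norm_char_eq_one]

variable (K)

/-- `L(σ, ψ^j)` regrouped by ideal classes. -/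
theorem Lfun_extChar_eq (hsummable : ∀ (c : ClassGroup (𝓞 K)) (s : ℝ), 1 < s →
      Summable (fun I : {I : (Ideal (𝓞 K))⁰ // ClassGroup.mk0 I = c} ↦
        ((Ideal.absNorm (I.1 : Ideal (𝓞 K)) : ℝ)) ^ (-s)))
    (ψ : ClassGroup (𝓞 K) →* ℂˣ) (j : ℕ) {σ : ℝ} (hσ : 1 < σ) :
    Lfun K (extChar ψ) j σ =
      ∑ c : ClassGroup (𝓞 K), ((ψ c : ℂˣ) : ℂ) ^ j * (Cnt.classZeta K c σ : ℂ) := by
  set f : Ideal (𝓞 K) → ℂ := fun I ↦ twistPow K (extChar ψ) j σ I with hf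
  have hfsum : Summable f :=
    (summable_norm_twistPow (norm_extChar_le_one ψ) j hσ).of_norm
  -- restrict to nonzero ideals
  have hsupp : Function.support f ⊆ ((Ideal (𝓞 K))⁰ : Set (Ideal (𝓞 K))) := by
    intro I hI
    rw [Function.mem_support] at hI
    have : I ≠ ⊥ := by
      rintro rfl
      apply hI
      rw [hf]
      simp only
      rw [twistPow_apply, normPow_bot, Complex.ofReal_zero, mul_zero]
    exact mem_nonZeroDivisors_of_ne_zero this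
  have h1 : Lfun K (extChar ψ) j σ = ∑' I : (Ideal (𝓞 K))⁰, f (I : Ideal (𝓞 K)) :=
    (tsum_subtype_eq_of_support_subset hsupp).symm
  set g : (Ideal (𝓞 K))⁰ → ℂ := fun I ↦ f (I : Ideal (𝓞 K)) with hg
  have hfsum' : Summable g :=
    hfsum.subtype ((Ideal (𝓞 K))⁰ : Set (Ideal (𝓞 K)))
  -- regroup by classes
  let e := Equiv.sigmaFiberEquiv (fun I : (Ideal (𝓞 K))⁰ ↦ ClassGroup.mk0 I)
  have hs' : Summable (g ∘ e) := e.summable_iff.mpr hfsum'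
  have h2 : ∑' I : (Ideal (𝓞 K))⁰, g I = ∑' x, (g ∘ e) x := (e.tsum_eq g).symm
  rw [h1, h2, hs'.tsum_sigma, tsum_fintype]
  refine Finset.sum_congr rfl fun c _ ↦ ?_
  have hterm : ∀ I : {I : (Ideal (𝓞 K))⁰ // ClassGroup.mk0 I = c},
      (g ∘ e) ⟨c, I⟩ =
        ((ψ c : ℂˣ) : ℂ) ^ j * (((Ideal.absNorm (I.1 : Ideal (𝓞 K)) : ℝ) ^ (-σ) : ℝ) : ℂ) := by
    intro I
    show twistPow K (extChar ψ) j σ (I.1 : Ideal (𝓞 K)) = _
    rw [twistPow_apply, extChar_nz, I.2, normPow_apply_of_ne_bot σ (ne_bot_of_nz I.1)]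
  rw [tsum_congr hterm, tsum_mul_left, Cnt.classZeta, Complex.ofReal_tsum]

/-- **CNT adapter**: if `ψ^j ≠ 1` then `L(σ, ψ^j)` is bounded on `(1, 2]`. -/
theorem Lfun_extChar_bounded (hZ : Cnt.ClassZetaStatement K) (ψ : ClassGroup (𝓞 K) →* ℂˣ) (j : ℕ)
    (hj : ∃ c, ψ c ^ j ≠ 1) :
    ∃ B : ℝ, ∀ σ : ℝ, 1 < σ → σ ≤ 2 → ‖Lfun K (extChar ψ) j σ‖ ≤ B := by
  obtain ⟨hsummable, C, hC⟩ := hZ
  refine ⟨Fintype.card (ClassGroup (𝓞 K)) * C, fun σ h1 h2 ↦ ?_⟩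
  have hsum0 : ∑ c : ClassGroup (𝓞 K), ((ψ c : ℂˣ) : ℂ) ^ j = 0 := by
    have hne : (Units.coeHom ℂ).comp (ψ ^ j) ≠ 1 := by
      intro h
      obtain ⟨c, hc⟩ := hj
      apply hc
      have := DFunLike.congr_fun h c
      apply Units.ext
      simpa using this
    have := sum_hom_units_eq_zero ((Units.coeHom ℂ).comp (ψ ^ j)) hne
    simpa using this
  have hrewrite : Lfun K (extChar ψ) j σ =
      ∑ c : ClassGroup (𝓞 K), ((ψ c : ℂˣ) : ℂ) ^ j *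
        ((Cnt.classZeta K c σ - Cnt.classZeta K 1 σ : ℝ) : ℂ) := by
    rw [Lfun_extChar_eq K hsummable ψ j h1]
    have : ∑ c : ClassGroup (𝓞 K), ((ψ c : ℂˣ) : ℂ) ^ j *
        ((Cnt.classZeta K c σ - Cnt.classZeta K 1 σ : ℝ) : ℂ) =
        ∑ c : ClassGroup (𝓞 K), ((ψ c : ℂˣ) : ℂ) ^ j * (Cnt.classZeta K c σ : ℂ) -
          (∑ c : ClassGroup (𝓞 K), ((ψ c : ℂˣ) : ℂ) ^ j) * (Cnt.classZeta K 1 σ : ℂ) := by
      rw [Finset.sum_mul, ← Finset.sum_sub_distrib]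
      exact Finset.sum_congr rfl fun c _ ↦ by push_cast; ring
    rw [this, hsum0, zero_mul, sub_zero]
  rw [hrewrite]
  calc ‖∑ c : ClassGroup (𝓞 K), ((ψ c : ℂˣ) : ℂ) ^ j *
        ((Cnt.classZeta K c σ - Cnt.classZeta K 1 σ : ℝ) : ℂ)‖
      ≤ ∑ c : ClassGroup (𝓞 K), ‖((ψ c : ℂˣ) : ℂ) ^ j *
        ((Cnt.classZeta K c σ - Cnt.classZeta K 1 σ : ℝ) : ℂ)‖ := norm_sum_le _ _
    _ ≤ ∑ _c : ClassGroup (𝓞 K), C := by
        refine Finset.sum_le_sum fun c _ ↦ ?_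
        rw [norm_mul, norm_pow, norm_char_eq_one, one_pow, one_mul, Complex.norm_real,
          Real.norm_eq_abs]
        exact hC c 1 σ h1 h2
    _ = Fintype.card (ClassGroup (𝓞 K)) * C := by
        rw [Finset.sum_const, Finset.card_univ, nsmul_eq_mul]

end Fermat.Agent.S14.Euler92
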