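/-
S14 / K3 DENS (helper92): `DensStatement` (CoreIface, verbatim) from
* [CNT]   `Cnt.ClassZetaStatement K` for every number field `K`, and
* [SPLIT] `SplitStatement`: the set of degree-one primes `Q ∤ p` modulo which `u` is not a `p`-th
  power has lower Dirichlet density `≥ 1 - 1/p`.
No sorry.
-/
import Fermat.Agent.S14.Euler92.ClassL
import Fermat.Agent.S14.CoreIface

set_option autoImplicit false

open Filter Ideal NumberField Topology Finset
open scoped Classical nonZeroDivisors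

noncomputable section

namespace Fermat.Agent.S14.Euler92

/-- The set of degree-one primes `Q ∤ p` of `𝓞 K` modulo which `u` is not a `p`-th power. -/
def splitSet (K : Type*) [Field K] [NumberField K] (p : ℕ) (u : 𝓞 K) : Set (Ideal (𝓞 K)) :=
  {Q | Q.IsPrime ∧ Q ≠ ⊥ ∧ (Ideal.absNorm Q).Prime ∧ (p : 𝓞 K) ∉ Q ∧ ¬ IsPowMod p Q u}

/-- **[SPLIT]** in the shape consumed by `dens_false`. -/
def SplitStatement : Prop :=
  ∀ (K : Type) [Field K] [NumberField K] (p : ℕ) [Fact p.Prime], p ≠ 2 →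
  ∀ (ζ : K), IsPrimitiveRoot ζ p →
  ∀ (u : 𝓞 K), u ≠ 0 → (¬ ∃ v : K, v ^ p = (u : K)) →
  ∃ C₀ : ℝ, ∀ σ : ℝ, 1 < σ → σ ≤ 2 →
    (1 - 1 / (p : ℝ)) * Real.log (1 / (σ - 1)) - C₀ ≤
      ∑' Q : splitSet K p u, normPow K σ (Q : Ideal (𝓞 K))

/-- `ψ` of prime order `p`, `ψ ≠ 1`, `0 < j < p` ⇒ `ψ^j ≠ 1`. -/
theorem pow_ne_one_of_prime_order {G : Type*} [Monoid G] {p : ℕ} (hp : p.Prime) {ψ : G}
    (hψp : ψ ^ p = 1) (hψ1 : ψ ≠ 1) {j : ℕ} (hj0 : 0 < j) (hjp : j < p) : ψ ^ j ≠ 1 := by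
  intro h
  have h1 : orderOf ψ ∣ p := orderOf_dvd_of_pow_eq_one hψp
  have h2 : orderOf ψ ∣ j := orderOf_dvd_of_pow_eq_one h
  rcases (Nat.dvd_prime hp).mp h1 with h3 | h3
  · exact hψ1 (orderOf_eq_one_iff.mp h3)
  · rw [h3] at h2
    exact absurd (Nat.le_of_dvd hj0 h2) (not_le.mpr hjp)

/-- **K3 / DENS** from [CNT] and [SPLIT]. -/
theorem densStatement_of
    (hCNT : ∀ (K : Type) [Field K] [NumberField K], Cnt.ClassZetaStatement K)
    (hSPLIT : SplitStatement) : DensStatement := by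
  intro K _ _ p _ hp2 ζ hζ u hu0 hupow ψ hψp hψ1 hQ
  have hp : p.Prime := Fact.out
  obtain ⟨C₀, hC₀⟩ := hSPLIT K p hp2 ζ hζ u hu0 hupow
  have hex : ∃ c, ψ c ≠ 1 := by
    by_contra h
    simp only [not_exists, not_not] at h
    exact hψ1 (MonoidHom.ext fun c ↦ by rw [h c, MonoidHom.one_apply])
  obtain ⟨c₀, hc₀⟩ := hex
  refine dens_false (K := K) hp (ψ := extChar ψ) (extChar_pow_eq_one ψ hψp) ?_ (splitSet K p u) ?_ ?_
    (c := 1 - 1 / (p : ℝ)) (C₀ := C₀) ?_ hC₀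
  · intro j hj0 hjp
    exact Lfun_extChar_bounded K (hCNT K) ψ j
      ⟨c₀, pow_ne_one_of_prime_order hp (hψp c₀) hc₀ hj0 hjp⟩
  · rintro Q ⟨hQprime, hQ0, -⟩
    exact Ideal.prime_of_isPrime hQ0 hQprime
  · rintro Q ⟨hQprime, hQ0, hN, hpQ, hpow⟩
    rw [extChar_of_ne_bot ψ hQ0]
    have := @hQ Q hQprime hQ0 hN hpQ hpow
    have e : nz Q hQ0 = primeNZ Q hQ0 := rfl
    rw [e, this, Units.val_one]
  · have h3 : (3 : ℝ) ≤ p := by
      have : 3 ≤ p := by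
        have := hp.two_le
        omega
      exact_mod_cast this
    have hp0 : (p : ℝ) ≠ 0 := by positivity
    rw [sub_mul, one_mul, one_div, inv_mul_cancel₀ hp0]
    linarith

end Fermat.Agent.S14.Euler92
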